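import Mathlib
import Fermat.Agent.JT3.Hecke.InputsBar
import Fermat.Agent.S24.Comb.Index

/-!
# JT3 / S37 leaf [DEG]: the degree of `α : F̄_N → F̄_{Nℓ}` is `ℓ + 1` (prefix `nld_`)

Tower law `Q̄(j) ⊂ F̄_N ⊂ F̄_{Nℓ}` with `[F̄_M : Q̄(j)] = ψ(M)` (S24 `an_finrank_jBar`,
`Comb.card_quotient_Gamma0`) and `ψ(ℓ N) = (ℓ + 1) ψ(N)` for a prime `ℓ ∤ N`.
-/

set_option autoImplicit false
set_option linter.unusedSectionVars false
set_option linter.style.haveILetI false

namespace Fermat.Agent.JT3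

open AlgebraicCurve IntermediateField ModularCurve
open Fermat.Agent.S24

section generic

variable {K F F' : Type*} [Field K] [Field F] [Field F'] [Algebra K F] [Algebra K F']

/-- **Tower law along `φ`**: `[F' : K(φ x)] = [F : K(x)] · [F' : F]`. -/
theorem nld_finrank_tower (φ : F →ₐ[K] F') (x : F) :
    Module.finrank K⟮φ x⟯ F' = Module.finrank K⟮x⟯ F * finrankAlong K φ := by
  letI := algebraAlong φ
  letI : Algebra K⟮x⟯ F' := (φ.toRingHom.comp (algebraMap K⟮x⟯ F)).toAlgebra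
  haveI : IsScalarTower K⟮x⟯ F F' := IsScalarTower.of_algebraMap_eq fun _ => rfl
  have h1 : Module.finrank K⟮x⟯ F * Module.finrank F F' = Module.finrank K⟮x⟯ F' :=
    Module.finrank_mul_finrank K⟮x⟯ F F'
  have hmap : (K⟮x⟯).map φ = K⟮φ x⟯ := by
    rw [adjoin_map, Set.image_singleton]
  let i : K⟮x⟯ ≃ₐ[K] K⟮φ x⟯ := (equivMap K⟮x⟯ φ).trans (equivOfEq hmap)
  have h2 : Module.finrank K⟮x⟯ F' = Module.finrank K⟮φ x⟯ F' :=
    Algebra.finrank_eq_of_equiv_equiv i.toRingEquiv (RingEquiv.refl F') (by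
      ext a
      rfl)
  unfold finrankAlong
  rw [← h2, ← h1]

end generic

/-- **[DEG]** the degree of the degeneracy map `α : F̄_N → F̄_{Nℓ}` is `ℓ + 1`. -/
theorem nld_finrankAlong (N l : ℕ) [NeZero N] [NeZero l] (hl : l.Prime) (hlN : ¬ l ∣ N) :
    finrankAlong (AlgebraicClosure ℚ) (heckeAlphaBar (AlgebraicClosure ℚ) N l) = l + 1 := by
  have h := nld_finrank_tower (heckeAlphaBar Kbar N l) (br_jBar N)
  have h1 : Module.finrank Kbar⟮heckeAlphaBar Kbar N l (br_jBar N)⟯ (Fbar (N * l)) =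
      (l + 1) * ModularCurve.dedekindPsi N := by
    rw [hib_alpha_jBar, an_finrank_jBar, Comb.card_quotient_Gamma0, mul_comm N l,
      Comb.dedekindPsi_prime_mul_of_not_dvd hl hlN]
  rw [h1, an_finrank_jBar, Comb.card_quotient_Gamma0] at h
  have hpos : 0 < ModularCurve.dedekindPsi N := by
    rw [← Comb.card_quotient_Gamma0, ← an_finrank_jBar]
    exact Module.finrank_pos
  have h2 : ModularCurve.dedekindPsi N * (l + 1) =
      ModularCurve.dedekindPsi N * finrankAlong Kbar (heckeAlphaBar Kbar N l) := by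
    rw [← h, mul_comm]
  exact (Nat.eq_of_mul_eq_mul_left hpos h2).symm

end Fermat.Agent.JT3
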