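/-
JT3, Eichler–Shimura side, node [NL] (the norm from level `Nℓ` to level `N`): shared definitions.

`nl_normBeta N ℓ y = N_{F̄_{Nℓ}/F̄_N} (y(q^ℓ))`, the norm along the degeneracy map `α` (inclusion) of
the image of `y` under the degeneracy map `β` (`q ↦ q^ℓ`).  By the prelude's norm formula,
`T_ℓ (div y) = div (nl_normBeta N ℓ y)`.
-/
import Mathlib
import Fermat.Prelude.Def_ModularCurve_HeckeOperatorTotal

set_option autoImplicit false

noncomputable section

namespace Fermat.Agent.JT3

open ModularCurve AlgebraicCurve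

/-- the norm of `y(q^ℓ)` from level `Nℓ` down to level `N` -/
def nl_normBeta (N ℓ : ℕ) [NeZero N] [NeZero ℓ] (y : modularFunctionFieldBar N) :
    modularFunctionFieldBar N :=
  letI := algebraAlong (heckeAlphaBar (AlgebraicClosure ℚ) N ℓ)
  Algebra.norm (modularFunctionFieldBar N) (heckeBetaBar (AlgebraicClosure ℚ) N ℓ y)

theorem nl_normBeta_def (N ℓ : ℕ) [NeZero N] [NeZero ℓ] (y : modularFunctionFieldBar N) :
    nl_normBeta N ℓ y =
      (letI := algebraAlong (heckeAlphaBar (AlgebraicClosure ℚ) N ℓ)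
       Algebra.norm (modularFunctionFieldBar N) (heckeBetaBar (AlgebraicClosure ℚ) N ℓ y)) :=
  rfl

end Fermat.Agent.JT3

end
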