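/-
JT3, Eichler–Shimura side, node [NP]: the norm of a finite separable extension as the product over
a complete family of embeddings into an arbitrary field (prefix `nlp_`).

`nlp_norm_eq_prod`: `L/K` finite separable, `i₀ : K →+* Ω` a ring homomorphism into a field,
`σ : ι → L →+* Ω` an injective family of extensions of `i₀`, indexed by a type of cardinality
`[L : K]`.  Then `i₀ (N_{L/K} u) = ∏ i, σ i u`.
-/
import Mathlib

set_option autoImplicit false
set_option linter.style.haveILetI false

noncomputable section

namespace Fermat.Agent.JT3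

open Module

section

variable {K L Ω ι : Type*} [Field K] [Field L] [Field Ω] [Algebra K L]

/-- an extension `τ : L →+* Ω` of `i₀ : K →+* Ω`, as an algebra homomorphism into the algebraic
closure of `Ω` (for the `K`-algebra structure on it given by `i₀`) -/
def nlp_toAlgHom (i₀ : K →+* Ω) (τ : L →+* Ω) (hτ : ∀ x, τ (algebraMap K L x) = i₀ x) :
    letI : Algebra K (AlgebraicClosure Ω) :=
      ((algebraMap Ω (AlgebraicClosure Ω)).comp i₀).toAlgebra
    L →ₐ[K] AlgebraicClosure Ω :=
  letI : Algebra K (AlgebraicClosure Ω) :=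
    ((algebraMap Ω (AlgebraicClosure Ω)).comp i₀).toAlgebra
  { (algebraMap Ω (AlgebraicClosure Ω)).comp τ with
    commutes' := fun x => by
      change algebraMap Ω (AlgebraicClosure Ω) (τ (algebraMap K L x)) =
        algebraMap Ω (AlgebraicClosure Ω) (i₀ x)
      rw [hτ] }

theorem nlp_toAlgHom_apply (i₀ : K →+* Ω) (τ : L →+* Ω)
    (hτ : ∀ x, τ (algebraMap K L x) = i₀ x) (u : L) :
    letI : Algebra K (AlgebraicClosure Ω) :=
      ((algebraMap Ω (AlgebraicClosure Ω)).comp i₀).toAlgebra
    nlp_toAlgHom i₀ τ hτ u = algebraMap Ω (AlgebraicClosure Ω) (τ u) := rfl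

variable [FiniteDimensional K L] [Algebra.IsSeparable K L] [Fintype ι]

/-- **The norm is the product over a complete family of embeddings.** -/
theorem nlp_norm_eq_prod (i₀ : K →+* Ω) (σ : ι → L →+* Ω)
    (hσ : ∀ i x, σ i (algebraMap K L x) = i₀ x) (hinj : Function.Injective σ)
    (hcard : Fintype.card ι = Module.finrank K L) (u : L) :
    i₀ (Algebra.norm K u) = ∏ i, σ i u := by
  classical
  letI : Algebra K (AlgebraicClosure Ω) :=
    ((algebraMap Ω (AlgebraicClosure Ω)).comp i₀).toAlgebra
  let e : ι → (L →ₐ[K] AlgebraicClosure Ω) := fun i => nlp_toAlgHom i₀ (σ i) (hσ i)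
  have hinjΩ : Function.Injective (algebraMap Ω (AlgebraicClosure Ω)) :=
    (algebraMap Ω (AlgebraicClosure Ω)).injective
  have he_inj : Function.Injective e := by
    intro i j hij
    apply hinj
    apply RingHom.ext
    intro x
    apply hinjΩ
    have := DFunLike.congr_fun hij x
    exact this
  have he_bij : Function.Bijective e := by
    rw [Fintype.bijective_iff_injective_and_card]
    refine ⟨he_inj, ?_⟩
    rw [hcard, AlgHom.card K L (AlgebraicClosure Ω)]
  apply hinjΩ
  have h1 := Algebra.norm_eq_prod_embeddings K (AlgebraicClosure Ω) u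
  have h2 : algebraMap K (AlgebraicClosure Ω) (Algebra.norm K u) =
      algebraMap Ω (AlgebraicClosure Ω) (i₀ (Algebra.norm K u)) := rfl
  rw [← h2, h1, map_prod]
  exact (Fintype.prod_bijective e he_bij _ _ (fun i => rfl)).symm

end

end Fermat.Agent.JT3

end
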