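/-
JT3, Eichler–Shimura side, node [NLa]: the norm from level `Nℓ` to level `N` of `y(q^ℓ)` as an
explicit product of Laurent series (prefix `nln_`).

`nln_norm`: given the degree `[F̄_{Nℓ} : F̄_N] = ℓ + 1` and the "swap embedding"
`w : F̄_{Nℓ} → ℂ((t))` (with `w ∘ α = (q ↦ t^ℓ)` and `w ∘ β = (q ↦ t)`), for `y ∈ F̄_N`
`(N_{F̄_{Nℓ}/F̄_N} y(q^ℓ))(q^ℓ) = y(q^{ℓ²}) · ∏_{b<ℓ} y(ζ^b q)`.
The `ℓ + 1` embeddings of `F̄_{Nℓ}` over `F̄_N` (embedded by `q ↦ t^ℓ`) into `ℂ((t))` are
`z ↦ z(t^ℓ)` and `z ↦ (w z)(ζ^b t)`, `b < ℓ`; they are separated by `β j`.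
-/
import Fermat.Agent.JT3.NL.Defs
import Fermat.Agent.JT3.NL.NormProd
import Fermat.Agent.S28.Formal.Subst
import Fermat.Agent.S24.Bridge.Degree

set_option autoImplicit false
set_option linter.style.haveILetI false
set_option linter.unusedSectionVars false

noncomputable section

namespace Fermat.Agent.JT3

open ModularCurve AlgebraicCurve

local notation "Qbar" => AlgebraicClosure ℚ

/-- `coeffMap` along an injective ring homomorphism is injective -/
theorem nln_coeffMap_injective {R S : Type*} [CommRing R] [CommRing S] (φ : R →+* S)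
    (hφ : Function.Injective φ) : Function.Injective (coeffMap φ) := by
  intro x y hxy
  ext k
  apply hφ
  rw [← coeffMap_coeff, ← coeffMap_coeff, hxy]

/-- a twist by an `ℓ`-th root of unity fixes the series in `t^ℓ` -/
theorem nln_twist_qExpand {R : Type*} [CommRing R] (l : ℕ) [NeZero l] (c : Rˣ) (hc : c ^ l = 1)
    (f : LaurentSeries R) :
    S28.fs_twist c (qExpand R l f) = qExpand R l f := by
  rw [← S28.fs_qExpand_twist, hc, S28.fs_twist_one]

section main

variable (N l : ℕ) [NeZero N] [NeZero l]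

/-- the base embedding `x ↦ x(t^ℓ)` of `F̄_N` into `ℂ((t))` -/
def nln_i₀ : modularFunctionFieldBar N →+* LaurentSeries ℂ :=
  (coeffMap (S24.br_iota : Qbar →+* ℂ)).comp
    ((qExpand Qbar l).comp (algebraMap (modularFunctionFieldBar N) (LaurentSeries Qbar)))

theorem nln_i₀_apply (x : modularFunctionFieldBar N) :
    nln_i₀ N l x =
      coeffMap (S24.br_iota : Qbar →+* ℂ) (qExpand Qbar l (x : LaurentSeries Qbar)) := rfl

/-- the `ℓ + 1` embeddings of `F̄_{Nℓ}` into `ℂ((t))` -/
def nln_σ (w : modularFunctionFieldBar (N * l) →+* LaurentSeries ℂ) (ζ : Qbarˣ) :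
    Option (Fin l) → (modularFunctionFieldBar (N * l) →+* LaurentSeries ℂ)
  | none => nln_i₀ (N * l) l
  | some b => (S28.fs_twist (Units.map ((S24.br_iota : Qbar →+* ℂ) : Qbar →* ℂ) ζ ^ (b : ℕ))).comp w

theorem nln_σ_none (w : modularFunctionFieldBar (N * l) →+* LaurentSeries ℂ) (ζ : Qbarˣ)
    (z : modularFunctionFieldBar (N * l)) :
    nln_σ N l w ζ none z =
      coeffMap (S24.br_iota : Qbar →+* ℂ) (qExpand Qbar l (z : LaurentSeries Qbar)) := rfl

theorem nln_σ_some (w : modularFunctionFieldBar (N * l) →+* LaurentSeries ℂ) (ζ : Qbarˣ)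
    (b : Fin l) (z : modularFunctionFieldBar (N * l)) :
    nln_σ N l w ζ (some b) z =
      S28.fs_twist (Units.map ((S24.br_iota : Qbar →+* ℂ) : Qbar →* ℂ) ζ ^ (b : ℕ)) (w z) := rfl

end main

section thm

variable (N l : ℕ) [NeZero N] [NeZero l]

/-- the test element `β j` and its coefficients at `-1` under the `ℓ + 1` embeddings -/
theorem nln_coeff_none (hl : 2 ≤ l) (w : modularFunctionFieldBar (N * l) →+* LaurentSeries ℂ)
    (ζ : Qbarˣ) (z : modularFunctionFieldBar (N * l)) :
    (nln_σ N l w ζ none z).coeff (-1) = 0 := by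
  rw [nln_σ_none, coeffMap_coeff, qExpand_coeff_of_not_dvd, map_zero]
  intro h
  have h1 : (l : ℤ) ∣ 1 := (Int.dvd_neg).1 h
  have h2 : (l : ℤ) ≤ 1 := Int.le_of_dvd one_pos h1
  omega

theorem nln_coeff_some (w : modularFunctionFieldBar (N * l) →+* LaurentSeries ℂ)
    (hwβ : ∀ y : modularFunctionFieldBar N, w (heckeBetaBar Qbar N l y) =
      coeffMap (S24.br_iota : Qbar →+* ℂ) (y : LaurentSeries Qbar))
    (ζ : Qbarˣ) (b : Fin l) :
    (nln_σ N l w ζ (some b) (heckeBetaBar Qbar N l (S24.br_jBar N))).coeff (-1) =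
      (((Units.map ((S24.br_iota : Qbar →+* ℂ) : Qbar →* ℂ) ζ ^ (b : ℕ)) ^ (-1 : ℤ) : ℂˣ) : ℂ) := by
  rw [nln_σ_some, hwβ, S28.fs_twist_coeff, coeffMap_coeff, S24.coe_br_jBar]
  have h1 : (S24.br_jqK).coeff (-1) = 1 := by
    have := S24.br_coeff_jqK_pow_self 1
    rwa [pow_one] at this
  rw [h1, map_one, mul_one]

/-- **[NLa]: the norm of `y(q^ℓ)` from level `Nℓ` to level `N`, as a product of series.** -/
theorem nln_norm (hl : l.Prime) (hlN : ¬ l ∣ N)
    (hdeg : finrankAlong Qbar (heckeAlphaBar Qbar N l) = l + 1)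
    (hsw : ∃ w : modularFunctionFieldBar (N * l) →+* LaurentSeries ℂ,
      (∀ x : modularFunctionFieldBar N, w (heckeAlphaBar Qbar N l x) =
        coeffMap (S24.br_iota : Qbar →+* ℂ) (qExpand Qbar l (x : LaurentSeries Qbar))) ∧
      (∀ y : modularFunctionFieldBar N, w (heckeBetaBar Qbar N l y) =
        coeffMap (S24.br_iota : Qbar →+* ℂ) (y : LaurentSeries Qbar)))
    (ζ : Qbarˣ) (hζ : IsPrimitiveRoot ζ l) (y : modularFunctionFieldBar N) :
    qExpand Qbar l ((nl_normBeta N l y : modularFunctionFieldBar N) : LaurentSeries Qbar) =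
      qExpand Qbar (l ^ 2) (y : LaurentSeries Qbar) *
        ∏ b ∈ Finset.range l, S28.fs_twist (ζ ^ b) (y : LaurentSeries Qbar) := by
  classical
  obtain ⟨w, hwα, hwβ⟩ := hsw
  letI : Algebra (modularFunctionFieldBar N) (modularFunctionFieldBar (N * l)) :=
    algebraAlong (heckeAlphaBar Qbar N l)
  have hfr : Module.finrank (modularFunctionFieldBar N) (modularFunctionFieldBar (N * l)) =
      l + 1 := hdeg
  haveI : FiniteDimensional (modularFunctionFieldBar N) (modularFunctionFieldBar (N * l)) :=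
    Module.finite_of_finrank_pos (by rw [hfr]; omega)
  haveI : Algebra.IsSeparable (modularFunctionFieldBar N) (modularFunctionFieldBar (N * l)) :=
    inferInstance
  have hιinj : Function.Injective (S24.br_iota : Qbar →+* ℂ) := S24.br_iota_injective
  set ζC : ℂˣ := Units.map ((S24.br_iota : Qbar →+* ℂ) : Qbar →* ℂ) ζ with hζC
  have hζCprim : IsPrimitiveRoot ζC l :=
    hζ.map_of_injective (Units.map_injective hιinj)
  have hl2 : 2 ≤ l := hl.two_le
  -- the embeddings restrict to `i₀`
  have hσ : ∀ i (x : modularFunctionFieldBar N),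
      nln_σ N l w ζ i (algebraMap (modularFunctionFieldBar N) (modularFunctionFieldBar (N * l)) x) =
        nln_i₀ N l x := by
    intro i x
    have hx : algebraMap (modularFunctionFieldBar N) (modularFunctionFieldBar (N * l)) x =
        heckeAlphaBar Qbar N l x := rfl
    rw [hx]
    cases i with
    | none =>
      rw [nln_σ_none, nln_i₀_apply, coe_heckeAlphaBar]
    | some b =>
      rw [nln_σ_some, hwα, nln_i₀_apply, S28.fs_coeffMap_qExpand]
      apply nln_twist_qExpand
      rw [← pow_mul, mul_comm, pow_mul, hζCprim.pow_eq_one, one_pow]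
  -- the embeddings are pairwise distinct
  have hinj : Function.Injective (nln_σ N l w ζ) := by
    intro i j hij
    have hc : (nln_σ N l w ζ i (heckeBetaBar Qbar N l (S24.br_jBar N))).coeff (-1) =
        (nln_σ N l w ζ j (heckeBetaBar Qbar N l (S24.br_jBar N))).coeff (-1) := by rw [hij]
    cases i with
    | none =>
      cases j with
      | none => rfl
      | some b =>
        rw [nln_coeff_none N l hl2, nln_coeff_some N l w hwβ] at hc
        exact absurd hc.symm (Units.ne_zero _)
    | some a =>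
      cases j with
      | none =>
        rw [nln_coeff_none N l hl2, nln_coeff_some N l w hwβ] at hc
        exact absurd hc (Units.ne_zero _)
      | some b =>
        rw [nln_coeff_some N l w hwβ, nln_coeff_some N l w hwβ] at hc
        have h1 : ζC ^ (a : ℕ) = ζC ^ (b : ℕ) := by
          have := Units.ext hc
          rwa [zpow_neg_one, zpow_neg_one, inv_inj] at this
        have h2 : (a : ℕ) = (b : ℕ) := hζCprim.pow_inj a.2 b.2 h1
        rw [Fin.ext h2]
  have hcard : Fintype.card (Option (Fin l)) =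
      Module.finrank (modularFunctionFieldBar N) (modularFunctionFieldBar (N * l)) := by
    rw [hfr, Fintype.card_option, Fintype.card_fin]
  have key := nlp_norm_eq_prod (nln_i₀ N l) (nln_σ N l w ζ) hσ hinj hcard
    (heckeBetaBar Qbar N l y)
  have hL : nln_i₀ N l (Algebra.norm (modularFunctionFieldBar N) (heckeBetaBar Qbar N l y)) =
      coeffMap (S24.br_iota : Qbar →+* ℂ)
        (qExpand Qbar l ((nl_normBeta N l y : modularFunctionFieldBar N) : LaurentSeries Qbar)) :=
    rfl
  have hR : ∏ i, nln_σ N l w ζ i (heckeBetaBar Qbar N l y) =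
      coeffMap (S24.br_iota : Qbar →+* ℂ) (qExpand Qbar (l ^ 2) (y : LaurentSeries Qbar) *
        ∏ b ∈ Finset.range l, S28.fs_twist (ζ ^ b) (y : LaurentSeries Qbar)) := by
    rw [Fintype.prod_option, map_mul, map_prod, nln_σ_none, coe_heckeBetaBar, qExpand_qExpand,
      qExpand_congr (show l * l = l ^ 2 by ring)]
    congr 1
    rw [← Fin.prod_univ_eq_prod_range
      (fun b => coeffMap (S24.br_iota : Qbar →+* ℂ) (S28.fs_twist (ζ ^ b) (y : LaurentSeries Qbar))) l]
    refine Finset.prod_congr rfl fun b _ => ?_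
    rw [nln_σ_some, hwβ, S28.fs_coeffMap_twist, map_pow]
  rw [hL, hR] at key
  exact nln_coeffMap_injective _ hιinj key

end thm

end Fermat.Agent.JT3

end
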