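/-
JT3 / S37 node [AL] (helper24): the ATKIN–LEHNER SWAP on the function field of `X₀(N ℓ)`, `ℓ ∤ N` prime.

For `ℓ a − N c = 1` the matrix `W = [[ℓ a, 1], [N ℓ c, ℓ]]` (determinant `ℓ`) satisfies, for `e ∣ N`,
`diag(e,1) W = γ diag(ℓ e,1)` and `diag(ℓ e,1) W = ℓ γ' diag(e,1)` with `γ, γ' ∈ SL(2,ℤ)`; hence
`j(e · Wτ) = j(ℓ e τ)` and `j(ℓ e · Wτ) = j(e τ)`: precomposition with `W` permutes the generators of
`ℂ[j(dτ) : d ∣ N ℓ]`.  Through S24's injective analytic realisation `br_an : A0 (N ℓ) → (ℍ → ℂ)` this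
defines an injective `Q̄`-algebra endomorphism `nls_W0` of `A0 (N ℓ) = Q̄[j(q^d) : d ∣ N ℓ]` and of its
fraction field `F̄_{N ℓ}`:  `nls_W`, with

* `nls_W_alpha : W (α x) = β x` and `nls_W_beta : W (β x) = α x` (`α` = inclusion, `β` = `q ↦ q^ℓ`),
* `nls_exists_W`, and `nls_exists_swap` (the shape consumed by `[NLa]`, helper1's #1227).
Prefix `nls_`.
-/
import Mathlib
import Fermat.Agent.S24.Bridge.Degree
import Fermat.Prelude.Def_ModularCurve_HeckeOperatorTotal

set_option autoImplicit false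
set_option linter.unusedSectionVars false
set_option linter.style.haveILetI false
set_option linter.unusedVariables false

namespace Fermat.Agent.JT3

open UpperHalfPlane Matrix ModularCurve
open Fermat.Agent.S24 Fermat.Agent.S23
open scoped MatrixGroups

section Matrix

variable (N l : ℕ) [NeZero l] (a c : ℤ)

/-- The Atkin–Lehner matrix `[[l a, 1], [N l c, l]]` (`l a - N c = 1`), of determinant `l`. -/
noncomputable def nls_mat (h : (l : ℤ) * a - N * c = 1) : GL (Fin 2) ℝ :=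
  Matrix.GeneralLinearGroup.mkOfDetNeZero !![(l : ℝ) * a, 1; (N : ℝ) * l * c, (l : ℝ)] (by
    rw [Matrix.det_fin_two_of]
    have h' : (l : ℝ) * a - N * c = 1 := by exact_mod_cast h
    have hl : (l : ℝ) ≠ 0 := by exact_mod_cast NeZero.ne l
    have : (l : ℝ) * a * l - 1 * (N * l * c) = l := by linear_combination (l : ℝ) * h'
    rw [this]; exact hl)

variable {N l a c}

theorem nls_det_mat (h : (l : ℤ) * a - N * c = 1) : (nls_mat N l a c h).det.val = (l : ℝ) := by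
  have h' : (l : ℝ) * a - N * c = 1 := by exact_mod_cast h
  simp only [nls_mat, Matrix.GeneralLinearGroup.mkOfDetNeZero, Matrix.GeneralLinearGroup.val_det_apply]
  change (!![(l : ℝ) * a, 1; (N : ℝ) * l * c, (l : ℝ)]).det = l
  rw [Matrix.det_fin_two_of]
  linear_combination (l : ℝ) * h'

theorem nls_coe_mat_smul (h : (l : ℤ) * a - N * c = 1) (z : ℍ) :
    ((nls_mat N l a c h • z : ℍ) : ℂ) =
      ((l : ℂ) * a * z + 1) / ((N : ℂ) * l * c * z + l) := by
  have hdet : 0 < (nls_mat N l a c h).det.val := by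
    rw [nls_det_mat]; exact_mod_cast Nat.pos_of_ne_zero (NeZero.ne l)
  rw [UpperHalfPlane.coe_smul_of_det_pos hdet]
  simp [UpperHalfPlane.num, UpperHalfPlane.denom, nls_mat]

theorem nls_denom_ne_zero (h : (l : ℤ) * a - N * c = 1) (z : ℍ) :
    (N : ℂ) * l * c * z + l ≠ 0 := by
  have := UpperHalfPlane.denom_ne_zero (nls_mat N l a c h) z
  simpa [UpperHalfPlane.denom, nls_mat] using this

/-- `[[a, e], [e' c, l]] ∈ SL(2,ℤ)` -/
def nls_gam1 (e e' : ℕ) (hN : N = e * e') (h : (l : ℤ) * a - N * c = 1) : SL(2, ℤ) :=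
  ⟨!![a, (e : ℤ); (e' : ℤ) * c, (l : ℤ)], by
    rw [Matrix.det_fin_two_of]
    subst hN
    push_cast at h
    linear_combination h⟩

/-- `[[l a, e], [e' c, 1]] ∈ SL(2,ℤ)` -/
def nls_gam2 (e e' : ℕ) (hN : N = e * e') (h : (l : ℤ) * a - N * c = 1) : SL(2, ℤ) :=
  ⟨!![(l : ℤ) * a, (e : ℤ); (e' : ℤ) * c, 1], by
    rw [Matrix.det_fin_two_of]
    subst hN
    push_cast at h
    linear_combination h⟩

theorem nls_smul_eq1 (e e' : ℕ) [NeZero e] [NeZero (l * e)] (hN : N = e * e')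
    (h : (l : ℤ) * a - N * c = 1) (z : ℍ) :
    alphaN e • (nls_mat N l a c h • z) = nls_gam1 e e' hN h • (alphaN (l * e) • z) := by
  apply UpperHalfPlane.ext
  have hden := nls_denom_ne_zero h z
  rw [coe_alphaN_smul, nls_coe_mat_smul, UpperHalfPlane.coe_specialLinearGroup_apply,
    coe_alphaN_smul]
  simp only [nls_gam1, Matrix.SpecialLinearGroup.coe_mk, Matrix.of_apply, Matrix.cons_val',
    Matrix.cons_val_zero, Matrix.cons_val_one, Matrix.empty_val', Matrix.cons_val_fin_one,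
    algebraMap_int_eq, Int.coe_castRingHom]
  have hN' : (N : ℂ) = e * e' := by exact_mod_cast hN
  rw [hN'] at hden ⊢
  have hden' : ((e' : ℂ) * c) * ((l : ℂ) * e * (z : ℂ)) + l ≠ 0 := by
    have : ((e' : ℂ) * c) * ((l : ℂ) * e * (z : ℂ)) + l = (e : ℂ) * e' * l * c * z + l := by
      ring
    rw [this]; exact hden
  push_cast
  rw [mul_div_assoc', div_eq_div_iff hden hden']
  ring

theorem nls_smul_eq2 (e e' : ℕ) [NeZero e] [NeZero (l * e)] (hN : N = e * e')
    (h : (l : ℤ) * a - N * c = 1) (z : ℍ) :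
    alphaN (l * e) • (nls_mat N l a c h • z) = nls_gam2 e e' hN h • (alphaN e • z) := by
  apply UpperHalfPlane.ext
  have hden := nls_denom_ne_zero h z
  rw [coe_alphaN_smul, nls_coe_mat_smul, UpperHalfPlane.coe_specialLinearGroup_apply,
    coe_alphaN_smul]
  simp only [nls_gam2, Matrix.SpecialLinearGroup.coe_mk, Matrix.of_apply, Matrix.cons_val',
    Matrix.cons_val_zero, Matrix.cons_val_one, Matrix.empty_val', Matrix.cons_val_fin_one,
    algebraMap_int_eq, Int.coe_castRingHom]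
  have hN' : (N : ℂ) = e * e' := by exact_mod_cast hN
  rw [hN'] at hden ⊢
  have hl0 : (l : ℂ) ≠ 0 := by exact_mod_cast NeZero.ne l
  have hden' : ((e' : ℂ) * c) * ((e : ℂ) * (z : ℂ)) + 1 ≠ 0 := by
    intro h0
    apply hden
    linear_combination (l : ℂ) * h0
  push_cast
  rw [mul_div_assoc', div_eq_div_iff hden hden']
  ring

theorem nls_jd_comp1 (e e' : ℕ) [NeZero e] [NeZero (l * e)] (hN : N = e * e')
    (h : (l : ℤ) * a - N * c = 1) (z : ℍ) :
    jd e (nls_mat N l a c h • z) = jd (l * e) z := by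
  rw [jd, nls_smul_eq1 e e' hN h z, kleinJ_smul, jd]

theorem nls_jd_comp2 (e e' : ℕ) [NeZero e] [NeZero (l * e)] (hN : N = e * e')
    (h : (l : ℤ) * a - N * c = 1) (z : ℍ) :
    jd (l * e) (nls_mat N l a c h • z) = jd e z := by
  rw [jd, nls_smul_eq2 e e' hN h z, kleinJ_smul, jd]

end Matrix

section Swap0

variable {N l : ℕ} [NeZero N] [NeZero l]

theorem nls_exists_bezout (hl : l.Prime) (hlN : ¬ l ∣ N) : ∃ a c : ℤ, (l : ℤ) * a - N * c = 1 := by
  have hcop : Nat.Coprime l N := (Nat.Prime.coprime_iff_not_dvd hl).mpr hlN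
  have h := Int.gcd_eq_gcd_ab (l : ℤ) (N : ℤ)
  rw [Int.gcd_natCast_natCast, hcop] at h
  refine ⟨Int.gcdA l N, -Int.gcdB l N, ?_⟩
  push_cast at h
  linarith

theorem nls_dvd_cases (hl : l.Prime) (hlN : ¬ l ∣ N) {d : ℕ} (hd : d ∣ N * l) :
    (d ∣ N) ∨ ∃ e, d = l * e ∧ e ∣ N := by
  by_cases hld : l ∣ d
  · obtain ⟨e, rfl⟩ := hld
    right
    refine ⟨e, rfl, ?_⟩
    rw [mul_comm N l] at hd
    exact Nat.dvd_of_mul_dvd_mul_left hl.pos hd
  · left
    have hcop : Nat.Coprime d l := (Nat.Coprime.symm ((Nat.Prime.coprime_iff_not_dvd hl).mpr hld))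
    exact hcop.dvd_of_dvd_mul_right hd

variable {a c : ℤ} (h : (l : ℤ) * a - N * c = 1)

/-- Every element of `A0 (N l)` has an Atkin–Lehner transform in `A0 (N l)`. -/
theorem nls_exists_comp (hl : l.Prime) (hlN : ¬ l ∣ N) {x : LaurentSeries Kbar}
    (hx : x ∈ A0 (N * l)) :
    ∃ x' : A0 (N * l), ∀ z : ℍ, ((br_an (N * l) x' : jdAlgebra (N * l)) : ℍ → ℂ) z =
      ((br_an (N * l) ⟨x, hx⟩ : jdAlgebra (N * l)) : ℍ → ℂ) (nls_mat N l a c h • z) := by
  induction hx using Algebra.adjoin_induction with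
  | mem y hy =>
    obtain ⟨d, hd, hdN, rfl⟩ := hy
    haveI := hd
    rcases nls_dvd_cases hl hlN hdN with hdN' | ⟨e, rfl, heN⟩
    · obtain ⟨e', he'⟩ := hdN'
      haveI : NeZero (l * d) := ⟨Nat.mul_ne_zero (NeZero.ne l) (NeZero.ne d)⟩
      have hld : l * d ∣ N * l := by
        rw [mul_comm N l]; exact Nat.mul_dvd_mul_left l ⟨e', he'⟩
      refine ⟨⟨barGen (l * d), Algebra.subset_adjoin (barGen_mem_barGens hld)⟩, fun z => ?_⟩
      have e1 := br_an_barGen (N * l) hld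
      have e2 := br_an_barGen (N * l) hdN
      rw [e1]
      change _ = ((br_an (N * l) ⟨barGen d, Algebra.subset_adjoin (barGen_mem_barGens hdN)⟩ :
        jdAlgebra (N * l)) : ℍ → ℂ) _
      rw [e2, nls_jd_comp1 d e' he' h z]
    · obtain ⟨e', he'⟩ := heN
      haveI : NeZero e := ⟨fun h0 => by subst h0; exact NeZero.ne (l * 0) (by simp)⟩
      have heNl : e ∣ N * l := Dvd.dvd.mul_right ⟨e', he'⟩ l
      refine ⟨⟨barGen e, Algebra.subset_adjoin (barGen_mem_barGens heNl)⟩, fun z => ?_⟩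
      have e1 := br_an_barGen (N * l) heNl
      have e2 := br_an_barGen (N * l) hdN
      rw [e1]
      change _ = ((br_an (N * l) ⟨barGen (l * e), Algebra.subset_adjoin (barGen_mem_barGens hdN)⟩ :
        jdAlgebra (N * l)) : ℍ → ℂ) _
      rw [e2, nls_jd_comp2 e e' he' h z]
  | algebraMap r =>
    refine ⟨algebraMap Kbar (A0 (N * l)) r, fun z => ?_⟩
    have e1 := br_an_algebraMap (N * l) r
    rw [e1]
    change _ = ((br_an (N * l) (algebraMap Kbar (A0 (N * l)) r) : jdAlgebra (N * l)) : ℍ → ℂ) _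
    rw [e1]
  | add x y hx hy ihx ihy =>
    obtain ⟨x', hx'⟩ := ihx
    obtain ⟨y', hy'⟩ := ihy
    refine ⟨x' + y', fun z => ?_⟩
    have : (⟨x + y, add_mem hx hy⟩ : A0 (N * l)) = ⟨x, hx⟩ + ⟨y, hy⟩ := rfl
    rw [map_add]
    change ((br_an (N * l) x' : jdAlgebra (N * l)) : ℍ → ℂ) z +
      ((br_an (N * l) y' : jdAlgebra (N * l)) : ℍ → ℂ) z = _
    rw [hx' z, hy' z]
    change _ = ((br_an (N * l) (⟨x, hx⟩ + ⟨y, hy⟩) : jdAlgebra (N * l)) : ℍ → ℂ) _
    rw [map_add]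
    rfl
  | mul x y hx hy ihx ihy =>
    obtain ⟨x', hx'⟩ := ihx
    obtain ⟨y', hy'⟩ := ihy
    refine ⟨x' * y', fun z => ?_⟩
    rw [map_mul]
    change ((br_an (N * l) x' : jdAlgebra (N * l)) : ℍ → ℂ) z *
      ((br_an (N * l) y' : jdAlgebra (N * l)) : ℍ → ℂ) z = _
    rw [hx' z, hy' z]
    change _ = ((br_an (N * l) (⟨x, hx⟩ * ⟨y, hy⟩) : jdAlgebra (N * l)) : ℍ → ℂ) _
    rw [map_mul]
    rfl

end Swap0

section Swap1

variable {N l : ℕ} [NeZero N] [NeZero l] {a c : ℤ} (h : (l : ℤ) * a - N * c = 1)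
  (hl : l.Prime) (hlN : ¬ l ∣ N)

/-- The Atkin–Lehner transform on `A0 (N l)`, as a function. -/
noncomputable def nls_W0fun (x : A0 (N * l)) : A0 (N * l) :=
  (nls_exists_comp h hl hlN x.2).choose

theorem nls_W0fun_spec (x : A0 (N * l)) (z : ℍ) :
    ((br_an (N * l) (nls_W0fun h hl hlN x) : jdAlgebra (N * l)) : ℍ → ℂ) z =
      ((br_an (N * l) x : jdAlgebra (N * l)) : ℍ → ℂ) (nls_mat N l a c h • z) :=
  (nls_exists_comp h hl hlN x.2).choose_spec z

theorem nls_W0fun_eq (x x' : A0 (N * l))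
    (hx' : ∀ z : ℍ, ((br_an (N * l) x' : jdAlgebra (N * l)) : ℍ → ℂ) z =
      ((br_an (N * l) x : jdAlgebra (N * l)) : ℍ → ℂ) (nls_mat N l a c h • z)) :
    nls_W0fun h hl hlN x = x' := by
  apply br_an_injective (N * l)
  apply Subtype.ext
  funext z
  rw [nls_W0fun_spec, hx']

/-- The Atkin–Lehner transform on `A0 (N l)`, as an algebra endomorphism. -/
noncomputable def nls_W0 : A0 (N * l) →ₐ[Kbar] A0 (N * l) where
  toFun := nls_W0fun h hl hlN
  map_one' := nls_W0fun_eq h hl hlN _ _ fun z => by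
    rw [map_one]; rfl
  map_mul' x y := nls_W0fun_eq h hl hlN _ _ fun z => by
    rw [map_mul, map_mul]
    change ((br_an (N * l) (nls_W0fun h hl hlN x) : jdAlgebra (N * l)) : ℍ → ℂ) z *
      ((br_an (N * l) (nls_W0fun h hl hlN y) : jdAlgebra (N * l)) : ℍ → ℂ) z = _
    rw [nls_W0fun_spec, nls_W0fun_spec]
    rfl
  map_zero' := nls_W0fun_eq h hl hlN _ _ fun z => by
    rw [map_zero]; rfl
  map_add' x y := nls_W0fun_eq h hl hlN _ _ fun z => by
    rw [map_add, map_add]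
    change ((br_an (N * l) (nls_W0fun h hl hlN x) : jdAlgebra (N * l)) : ℍ → ℂ) z +
      ((br_an (N * l) (nls_W0fun h hl hlN y) : jdAlgebra (N * l)) : ℍ → ℂ) z = _
    rw [nls_W0fun_spec, nls_W0fun_spec]
    rfl
  commutes' r := nls_W0fun_eq h hl hlN _ _ fun z => by
    rw [br_an_algebraMap]

theorem nls_W0_spec (x : A0 (N * l)) (z : ℍ) :
    ((br_an (N * l) (nls_W0 h hl hlN x) : jdAlgebra (N * l)) : ℍ → ℂ) z =
      ((br_an (N * l) x : jdAlgebra (N * l)) : ℍ → ℂ) (nls_mat N l a c h • z) :=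
  nls_W0fun_spec h hl hlN x z

theorem nls_W0_injective : Function.Injective (nls_W0 h hl hlN) := by
  rw [injective_iff_map_eq_zero]
  intro x hx
  apply br_an_injective (N * l)
  apply Subtype.ext
  funext z
  have h1 := nls_W0_spec h hl hlN x ((nls_mat N l a c h)⁻¹ • z)
  rw [hx, smul_inv_smul] at h1
  rw [← h1, map_zero]
  rfl

/-- `W (j(q^d)) = j(q^(l d))` for `d ∣ N`. -/
theorem nls_W0_barGen_of_dvd {d : ℕ} [NeZero d] (hd : d ∣ N) (hd1 : d ∣ N * l)
    (hd2 : l * d ∣ N * l) [NeZero (l * d)] :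
    nls_W0 h hl hlN ⟨barGen d, Algebra.subset_adjoin (barGen_mem_barGens hd1)⟩ =
      ⟨barGen (l * d), Algebra.subset_adjoin (barGen_mem_barGens hd2)⟩ := by
  obtain ⟨e', he'⟩ := hd
  refine nls_W0fun_eq h hl hlN _ _ fun z => ?_
  rw [br_an_barGen (N * l) hd2, br_an_barGen (N * l) hd1, nls_jd_comp1 d e' he' h z]

/-- `W (j(q^(l e))) = j(q^e)` for `e ∣ N`. -/
theorem nls_W0_barGen_mul {e : ℕ} [NeZero e] (he : e ∣ N) (he1 : e ∣ N * l)
    (he2 : l * e ∣ N * l) [NeZero (l * e)] :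
    nls_W0 h hl hlN ⟨barGen (l * e), Algebra.subset_adjoin (barGen_mem_barGens he2)⟩ =
      ⟨barGen e, Algebra.subset_adjoin (barGen_mem_barGens he1)⟩ := by
  obtain ⟨e', he'⟩ := he
  refine nls_W0fun_eq h hl hlN _ _ fun z => ?_
  rw [br_an_barGen (N * l) he2, br_an_barGen (N * l) he1, nls_jd_comp2 e e' he' h z]

end Swap1

section Swap2

variable {N l : ℕ} [NeZero N] [NeZero l] {a c : ℤ} (h : (l : ℤ) * a - N * c = 1)
  (hl : l.Prime) (hlN : ¬ l ∣ N)

/-- `A0 (N l) → F̄_{N l}`, `x ↦ W x`. -/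
noncomputable def nls_Wg : A0 (N * l) →ₐ[Kbar] Fbar (N * l) :=
  (IsScalarTower.toAlgHom Kbar (A0 (N * l)) (Fbar (N * l))).comp (nls_W0 h hl hlN)

theorem nls_Wg_apply (x : A0 (N * l)) :
    nls_Wg h hl hlN x = algebraMap (A0 (N * l)) (Fbar (N * l)) (nls_W0 h hl hlN x) := rfl

theorem nls_Wg_injective : Function.Injective (nls_Wg h hl hlN) := by
  intro x y hxy
  rw [nls_Wg_apply, nls_Wg_apply] at hxy
  exact nls_W0_injective h hl hlN
    (FaithfulSMul.algebraMap_injective (A0 (N * l)) (Fbar (N * l)) hxy)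

/-- The Atkin–Lehner involution `W_l` of the function field `F̄_{N l}` (as an endomorphism). -/
noncomputable def nls_W : Fbar (N * l) →ₐ[Kbar] Fbar (N * l) :=
  IsFractionRing.liftAlgHom (g := nls_Wg h hl hlN) (nls_Wg_injective h hl hlN)

theorem nls_W_algebraMap (x : A0 (N * l)) :
    nls_W h hl hlN (algebraMap (A0 (N * l)) (Fbar (N * l)) x) =
      algebraMap (A0 (N * l)) (Fbar (N * l)) (nls_W0 h hl hlN x) := by
  rw [nls_W, IsFractionRing.liftAlgHom_apply, IsFractionRing.lift_algebraMap]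
  rfl

theorem nls_qExpand_barGen (d : ℕ) [NeZero d] [NeZero (l * d)] :
    qExpand Kbar l (barGen d) = barGen (l * d) := by
  rw [barGen, barGen, coeffEmb, ← coeffMap_qExpand, qExpand_qExpand]

theorem nls_alpha_gen {d : ℕ} [NeZero d] (hd : d ∣ N) (hd1 : d ∣ N * l) :
    heckeAlphaBar Kbar N l (algebraMap (A0 N) (Fbar N)
        ⟨barGen d, Algebra.subset_adjoin (barGen_mem_barGens hd)⟩) =
      algebraMap (A0 (N * l)) (Fbar (N * l))
        ⟨barGen d, Algebra.subset_adjoin (barGen_mem_barGens hd1)⟩ :=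
  Subtype.ext rfl

theorem nls_beta_gen {d : ℕ} [NeZero d] [NeZero (l * d)] (hd : d ∣ N) (hd2 : l * d ∣ N * l) :
    heckeBetaBar Kbar N l (algebraMap (A0 N) (Fbar N)
        ⟨barGen d, Algebra.subset_adjoin (barGen_mem_barGens hd)⟩) =
      algebraMap (A0 (N * l)) (Fbar (N * l))
        ⟨barGen (l * d), Algebra.subset_adjoin (barGen_mem_barGens hd2)⟩ := by
  apply Subtype.ext
  rw [coe_heckeBetaBar]
  exact nls_qExpand_barGen d

/-- `W ∘ α = β` on `A0 N`. -/
theorem nls_W_alpha_A0 :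
    ((nls_W h hl hlN).comp (heckeAlphaBar Kbar N l)).comp
        (IsScalarTower.toAlgHom Kbar (A0 N) (Fbar N)) =
      (heckeBetaBar Kbar N l).comp (IsScalarTower.toAlgHom Kbar (A0 N) (Fbar N)) := by
  refine AlgHom.ext_of_eq_adjoin (S := A0 N) (s := barGens N) rfl ?_
  rintro x ⟨d, hd, hdN, rfl⟩
  haveI := hd
  haveI : NeZero (l * d) := ⟨Nat.mul_ne_zero (NeZero.ne l) (NeZero.ne d)⟩
  have hd1 : d ∣ N * l := Dvd.dvd.mul_right hdN l
  have hd2 : l * d ∣ N * l := by rw [mul_comm N l]; exact Nat.mul_dvd_mul_left l hdN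
  change nls_W h hl hlN (heckeAlphaBar Kbar N l (algebraMap (A0 N) (Fbar N) _)) =
    heckeBetaBar Kbar N l (algebraMap (A0 N) (Fbar N) _)
  rw [nls_alpha_gen hdN hd1, nls_beta_gen hdN hd2, nls_W_algebraMap,
    nls_W0_barGen_of_dvd h hl hlN hdN hd1 hd2]

/-- `W ∘ β = α` on `A0 N`. -/
theorem nls_W_beta_A0 :
    ((nls_W h hl hlN).comp (heckeBetaBar Kbar N l)).comp
        (IsScalarTower.toAlgHom Kbar (A0 N) (Fbar N)) =
      (heckeAlphaBar Kbar N l).comp (IsScalarTower.toAlgHom Kbar (A0 N) (Fbar N)) := by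
  refine AlgHom.ext_of_eq_adjoin (S := A0 N) (s := barGens N) rfl ?_
  rintro x ⟨d, hd, hdN, rfl⟩
  haveI := hd
  haveI : NeZero (l * d) := ⟨Nat.mul_ne_zero (NeZero.ne l) (NeZero.ne d)⟩
  have hd1 : d ∣ N * l := Dvd.dvd.mul_right hdN l
  have hd2 : l * d ∣ N * l := by rw [mul_comm N l]; exact Nat.mul_dvd_mul_left l hdN
  change nls_W h hl hlN (heckeBetaBar Kbar N l (algebraMap (A0 N) (Fbar N) _)) =
    heckeAlphaBar Kbar N l (algebraMap (A0 N) (Fbar N) _)
  rw [nls_alpha_gen hdN hd1, nls_beta_gen hdN hd2, nls_W_algebraMap,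
    nls_W0_barGen_mul h hl hlN hdN hd1 hd2]

theorem nls_exists_div (x : Fbar N) : ∃ r s : A0 N,
    algebraMap (A0 N) (Fbar N) s ≠ 0 ∧
      x = algebraMap (A0 N) (Fbar N) r / algebraMap (A0 N) (Fbar N) s := by
  obtain ⟨r, s, hs, rfl⟩ := IsFractionRing.div_surjective (A := A0 N) x
  refine ⟨r, s, ?_, rfl⟩
  rw [Ne, map_eq_zero_iff _ (FaithfulSMul.algebraMap_injective (A0 N) (Fbar N))]
  exact nonZeroDivisors.ne_zero hs

/-- **`W ∘ α = β`**. -/
theorem nls_W_alpha (x : Fbar N) :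
    nls_W h hl hlN (heckeAlphaBar Kbar N l x) = heckeBetaBar Kbar N l x := by
  obtain ⟨r, s, -, rfl⟩ := nls_exists_div x
  have e := nls_W_alpha_A0 h hl hlN
  have er := DFunLike.congr_fun e r
  have es := DFunLike.congr_fun e s
  simp only [AlgHom.comp_apply, IsScalarTower.coe_toAlgHom'] at er es
  rw [map_div₀, map_div₀, map_div₀, er, es]

/-- **`W ∘ β = α`**. -/
theorem nls_W_beta (x : Fbar N) :
    nls_W h hl hlN (heckeBetaBar Kbar N l x) = heckeAlphaBar Kbar N l x := by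
  obtain ⟨r, s, -, rfl⟩ := nls_exists_div x
  have e := nls_W_beta_A0 h hl hlN
  have er := DFunLike.congr_fun e r
  have es := DFunLike.congr_fun e s
  simp only [AlgHom.comp_apply, IsScalarTower.coe_toAlgHom'] at er es
  rw [map_div₀, map_div₀, map_div₀, er, es]

end Swap2

section Swap3

variable (N l : ℕ) [NeZero N] [NeZero l]

/-- **The Atkin–Lehner involution swaps the two degeneracy maps.** -/
theorem nls_exists_W (hl : l.Prime) (hlN : ¬ l ∣ N) :
    ∃ W : Fbar (N * l) →ₐ[Kbar] Fbar (N * l),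
      (∀ x : Fbar N, W (heckeAlphaBar Kbar N l x) = heckeBetaBar Kbar N l x) ∧
      (∀ x : Fbar N, W (heckeBetaBar Kbar N l x) = heckeAlphaBar Kbar N l x) := by
  obtain ⟨a, c, h⟩ := nls_exists_bezout (N := N) hl hlN
  exact ⟨nls_W h hl hlN, nls_W_alpha h hl hlN, nls_W_beta h hl hlN⟩

/-- **[AL] the swap embedding** (statement of #1227): a ring hom `w : F̄_{N ℓ} → ℂ((t))` with
`w ∘ α = (q ↦ t^ℓ)` and `w ∘ β = (q ↦ t)`. -/
theorem nls_exists_swap (hl : l.Prime) (hlN : ¬ l ∣ N) :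
    ∃ w : modularFunctionFieldBar (N * l) →+* LaurentSeries ℂ,
      (∀ x : modularFunctionFieldBar N,
        w (heckeAlphaBar (AlgebraicClosure ℚ) N l x) =
          coeffMap (br_iota : AlgebraicClosure ℚ →+* ℂ)
            (qExpand (AlgebraicClosure ℚ) l (x : LaurentSeries (AlgebraicClosure ℚ)))) ∧
      (∀ y : modularFunctionFieldBar N,
        w (heckeBetaBar (AlgebraicClosure ℚ) N l y) =
          coeffMap (br_iota : AlgebraicClosure ℚ →+* ℂ)
            (y : LaurentSeries (AlgebraicClosure ℚ))) := by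
  obtain ⟨W, hWα, hWβ⟩ := nls_exists_W N l hl hlN
  refine ⟨(coeffMap (br_iota : AlgebraicClosure ℚ →+* ℂ)).comp
    ((modularFunctionFieldBar (N * l)).val.toRingHom.comp W.toRingHom), fun x => ?_, fun y => ?_⟩
  · change coeffMap (br_iota : AlgebraicClosure ℚ →+* ℂ)
      ((W (heckeAlphaBar (AlgebraicClosure ℚ) N l x) : modularFunctionFieldBar (N * l)) :
        LaurentSeries (AlgebraicClosure ℚ)) = _
    rw [hWα, coe_heckeBetaBar]
  · change coeffMap (br_iota : AlgebraicClosure ℚ →+* ℂ)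
      ((W (heckeBetaBar (AlgebraicClosure ℚ) N l y) : modularFunctionFieldBar (N * l)) :
        LaurentSeries (AlgebraicClosure ℚ)) = _
    rw [hWβ, coe_heckeAlphaBar]

end Swap3

end Fermat.Agent.JT3
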